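/-
M59 / Sink B, leaf 4, cell [DELTA0], assembly part 1 (helper7).  Prefix `m59dz_`.

For a compatible system `y ∈ T_p J₀(M q)` of classes fixed by the inertia group of `A`
(`A` over `q` odd, `q ∤ M`, `4 ∣ M`, `p` odd), with `c n := δ_{p^n} (y.1 n) ∈ JZeroC kA M`
(`twfr_delta`):

* `m59dz_compat`        : `p • c (n + 1) = c n` (an `f̄` of `y.1 (n+1)` is an `f̄` of `y.1 n`, and all
                          its orders are divisible by `p ^ (n+1)` by [NU0]);
* `m59dz_tors`          : `p ^ n • c n = 0`;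
* **`m59dz_zero_of_fixed`** : if every `c n` is fixed by `σ ^ 2` (`σ` the coefficientwise
                          `q`-Frobenius of `FF_A(M)`) then `c n = 0` for all `n`
                          (helper4's `m59fp_system_zero`: finiteness of the fixed classes).
-/
import Mathlib
import Fermat.Agent.M59.SinkB.NuZero.Full
import Fermat.Agent.M59.SinkB.FinPic.Main

set_option autoImplicit false
set_option linter.unusedSectionVars false
set_option linter.unusedVariables false
set_option linter.style.haveILetI false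
set_option synthInstance.maxHeartbeats 400000
set_option maxHeartbeats 1600000

noncomputable section

namespace Fermat.Agent.M59

open Fermat.Agent.TW

open Polynomial ModularCurve AlgebraicCurve IntermediateField IsLocalRing
open Fermat.Agent.JT3 Fermat.Agent.SS Fermat.Agent.S35 Fermat.Agent.S24 Fermat.Agent.S44

local notation "Qb" => AlgebraicClosure ℚ

section Main

variable (A : ValuationSubring Qb) {q : ℕ} [hq : Fact q.Prime] (hA : A.LiesOverPrime q)
  (M : ℕ) [NeZero M] [NeZero q] [NeZero (M * q)] (hqM : ¬ q ∣ M) (hq2 : ¬ 2 ∣ q) (h4 : 4 ∣ M)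
  {p : ℕ} [hp : Fact p.Prime]

attribute [local instance] s44kq_lsAction

include hA hqM hq2 h4 in
/-- **the classes `δ_{p^n} (y.1 n)` form a `p`-compatible system.** -/
theorem m59dz_compat (hp2 : p ≠ 2) (y : tj_T (M * q) p)
    (hfix : ∀ n, ∀ σ ∈ A.inertiaSubgroupIn ℚ, σ • y.1 n = y.1 n) (n : ℕ) :
    p • twfr_delta A M q (p ^ (n + 1)) (y.1 (n + 1)) = twfr_delta A M q (p ^ n) (y.1 n) := by
  haveI : CharP (s44e_kA A) q := jcr_charP A hA
  haveI : IsAlgClosed (s44e_kA A) := jcr_isAlgClosed A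
  haveI : HasPrincipalDivisors (s44e_kA A) (s44e_FF A M) :=
    rt_hasPrincipalDivisors (jcr_isSepGen (k := s44e_kA A) M hqM (jcr_rho A hA))
  have hm1 : 0 < p ^ (n + 1) := pow_pos hp.out.pos _
  have hm0 : 0 < p ^ n := pow_pos hp.out.pos _
  have hV1 : p ^ (n + 1) • y.1 (n + 1) = 0 := tm_tor y (n + 1)
  have hV0 : p ^ n • y.1 n = 0 := tm_tor y n
  have hFb := twfr_fbar_spec' A hA M hqM hm1.ne' hV1
  have hFbn := m59nz_fbar_shift A M y n 1 hFb
  have hd := m59nz_dvd_all A hA M hqM hq2 h4 hp2 y hfix (n + 1)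
  obtain ⟨D, hD⟩ := s44rf_exists_div hm1 hFb.1 hd
  rw [twfr_delta_eq A hq.out hA M hqM hm1 (s44rd_hmem A hA M hqM) hV1 hFb D hD,
    twfr_delta_eq A hq.out hA M hqM hm0 (s44rd_hmem A hA M hqM) hV0 hFbn (p • D)
      (fun Q => by
        rw [← hD Q, AddSubgroup.coe_nsmul, Finsupp.smul_apply, nsmul_eq_mul]
        push_cast
        ring)]
  rfl

/-- `p ^ n • δ_{p^n} (y.1 n) = 0`. -/
theorem m59dz_tors (y : tj_T (M * q) p) (n : ℕ) :
    p ^ n • twfr_delta A M q (p ^ n) (y.1 n) = 0 :=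
  twfr_delta_tors A M q (p ^ n) (y.1 n)

include hA hqM hq2 h4 in
/-- **[DELTA0] from the `σ²`-fixedness**: if all the classes `δ_{p^n} (y.1 n)` are fixed by the
square of the coefficientwise Frobenius, they vanish. -/
theorem m59dz_zero_of_fixed (hp2 : p ≠ 2) (y : tj_T (M * q) p)
    (hfix : ∀ n, ∀ σ ∈ A.inertiaSubgroupIn ℚ, σ • y.1 n = y.1 n)
    (φ : s44e_kA A ≃+* s44e_kA A) (hφ : ∀ c : s44e_kA A, φ c = c ^ q)
    (hfixδ : ∀ n, (ca_aut (s44e_kA A) M φ ^ 2) • twfr_delta A M q (p ^ n) (y.1 n) =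
      twfr_delta A M q (p ^ n) (y.1 n)) (n : ℕ) :
    twfr_delta A M q (p ^ n) (y.1 n) = 0 :=
  m59fp_system_zero M A hqM hA φ hφ 2 (by norm_num) hp.out
    (fun n => twfr_delta A M q (p ^ n) (y.1 n)) hfixδ
    (fun n => m59dz_compat A hA M hqM hq2 h4 hp2 y hfix n)
    (fun n => ⟨n, m59dz_tors A M y n⟩) n

end Main

end Fermat.Agent.M59
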