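/-
M59 / Sink B, leaf 4, cell [DELTA0] CLOSED (helper7; inputs: helper4's [FIN-Z] `m59fp_system_zero`
and [DELTA-REL] `m59fp_delta_fixed_nu`, [NU0] `m59nz_nuAll_zero`).  Prefix `m59dz_`.

`A` over `q` odd, `q ∤ M`, `4 ∣ M`, `p` odd.  For a compatible system `y ∈ T_p J₀(M q)` all of whose
layers lie in `m59sb_Y1 M q p A n` (fixed by the inertia group of `A`, killed by both push-forwards to
level `M`):

* **`m59dz_delta_zero_all`** : `δ_{p^n} (y.1 n) = 0` for every `n`;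
* `m59dz_Wsys`, `m59dz_Wsys_mem` : the Atkin–Lehner transform of the system is such a system;
* **`m59dz_delta_zero`**, **`m59dz_delta_zero_W`** : `δ_p (y.1 1) = 0` and `δ_p (W_q (y.1 1)) = 0`
  (the hypotheses `hδ`, `hδW` of `m59to_nf_at` on `m59tc_D1`);
* `m59dz_nf_hyps` : the four hypotheses `hν hνW hδ hδW` of `m59to_nf_at` for `u ∈ m59tc_D1`.
-/
import Mathlib
import Fermat.Agent.M59.SinkB.DeltaZero.Compat
import Fermat.Agent.M59.SinkB.FinPic.DeltaRel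
import Fermat.Agent.M59.SinkB.Tor.Count

set_option autoImplicit false
set_option linter.unusedSectionVars false
set_option linter.unusedVariables false
set_option linter.style.haveILetI false
set_option synthInstance.maxHeartbeats 400000
set_option maxHeartbeats 1600000

noncomputable section

namespace Fermat.Agent.M59

open Fermat.Agent.TW

open Polynomial ModularCurve AlgebraicCurve IntermediateField IsLocalRing
open Fermat.Agent.JT3 Fermat.Agent.SS Fermat.Agent.S35 Fermat.Agent.S24 Fermat.Agent.S44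

local notation "Qb" => AlgebraicClosure ℚ

section Main

variable (A : ValuationSubring Qb) {q : ℕ} [hq : Fact q.Prime] (hA : A.LiesOverPrime q)
  (M : ℕ) [NeZero M] [NeZero q] [NeZero (M * q)] (hqM : ¬ q ∣ M) (hq2 : ¬ 2 ∣ q) (h4 : 4 ∣ M)
  {p : ℕ} [hp : Fact p.Prime]

attribute [local instance] s44kq_lsAction

include hA hqM hq2 h4 in
/-- **[DELTA0], all layers**: `δ_{p^n} (y.1 n) = 0`. -/
theorem m59dz_delta_zero_all (hp2 : p ≠ 2) (y : tj_T (M * q) p)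
    (hy : ∀ n, y.1 n ∈ m59sb_Y1 M q p A n) (n : ℕ) :
    twfr_delta A M q (p ^ n) (y.1 n) = 0 := by
  obtain ⟨φ, hφ⟩ := s35b_exists_frob (A := A) hA
  have hfix : ∀ n, ∀ σ ∈ A.inertiaSubgroupIn ℚ, σ • y.1 n = y.1 n := fun n => (hy n).2.1
  refine m59dz_zero_of_fixed A hA M hqM hq2 h4 hp2 y hfix φ hφ (fun n => ?_) n
  exact m59fp_delta_fixed_nu A hA M hqM (pow_pos hp.out.pos n) φ hφ (tm_tor y n)
    (hy n).2.2.1 (hy n).2.2.2
    (fun Q => m59nz_nuAll_zero A hA M hqM hq2 h4 hp2 y hfix n Q)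
    (fun Q => m59nz_nuAll_zero_W A hA M hqM hq2 h4 hp2 y hfix n Q)

/-- the Atkin–Lehner transform of a compatible system. -/
def m59dz_Wsys (y : tj_T (M * q) p) : tj_T (M * q) p :=
  s35p_tmMap p (s44w_WJ M q hq.out hqM) y

theorem m59dz_Wsys_apply (y : tj_T (M * q) p) (n : ℕ) :
    (m59dz_Wsys M hqM y).1 n = s44w_WJ M q hq.out hqM (y.1 n) := rfl

/-- the Atkin–Lehner transform of a system of `Y1` is a system of `Y1`. -/
theorem m59dz_Wsys_mem (y : tj_T (M * q) p) (hy : ∀ n, y.1 n ∈ m59sb_Y1 M q p A n) (n : ℕ) :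
    (m59dz_Wsys M hqM y).1 n ∈ m59sb_Y1 M q p A n := by
  have hm0 : p ^ n ≠ 0 := pow_ne_zero _ hp.out.ne_zero
  obtain ⟨h0, h1, h2, h3⟩ := hy n
  refine ⟨?_, fun σ hσ => ?_, ?_, ?_⟩
  · rw [m59dz_Wsys_apply]
    exact twf_w_WJ_tors M q hq.out hqM (p ^ n) (y.1 n) h0
  · rw [m59dz_Wsys_apply, ← s44w_WJ_smul, h1 σ hσ]
  · rw [m59dz_Wsys_apply, twf_w_as_WJ M q hq.out hqM (p ^ n) hm0 (y.1 n) h0]
    exact h3
  · rw [m59dz_Wsys_apply, twf_w_bs_WJ M q hq.out hqM (p ^ n) hm0 (y.1 n) h0]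
    exact h2

include hA hqM hq2 h4 in
/-- **[DELTA0]**: `δ_p (y.1 1) = 0`. -/
theorem m59dz_delta_zero (hp2 : p ≠ 2) (y : tj_T (M * q) p)
    (hy : ∀ n, y.1 n ∈ m59sb_Y1 M q p A n) :
    twfr_delta A M q p (y.1 1) = 0 := by
  have h := m59dz_delta_zero_all A hA M hqM hq2 h4 hp2 y hy 1
  rwa [pow_one] at h

include hA hqM hq2 h4 in
/-- **[DELTA0] for `W_q`**: `δ_p (W_q (y.1 1)) = 0`. -/
theorem m59dz_delta_zero_W (hp2 : p ≠ 2) (y : tj_T (M * q) p)
    (hy : ∀ n, y.1 n ∈ m59sb_Y1 M q p A n) :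
    twfr_delta A M q p (s44w_WJ M q hq.out hqM (y.1 1)) = 0 :=
  m59dz_delta_zero A hA M hqM hq2 h4 hp2 (m59dz_Wsys M hqM y)
    (m59dz_Wsys_mem A M hqM y hy)

include hA hqM hq2 h4 in
/-- **the four hypotheses of `m59to_nf_at` on `m59tc_D1`.** -/
theorem m59dz_nf_hyps (hp2 : p ≠ 2) {u : JZero (M * q)} (hu : u ∈ m59tc_D1 M q p A) :
    twfr_nu A M q hq.out hqM p u = 0 ∧
      twfr_nu A M q hq.out hqM p (s44w_WJ M q hq.out hqM u) = 0 ∧
      twfr_delta A M q p u = 0 ∧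
      twfr_delta A M q p (s44w_WJ M q hq.out hqM u) = 0 := by
  obtain ⟨y, hy, rfl⟩ := hu
  have hfix : ∀ n, ∀ σ ∈ A.inertiaSubgroupIn ℚ, σ • y.1 n = y.1 n := fun n => (hy n).2.1
  exact ⟨m59nz_nu_zero A hA M hqM hq2 h4 hp2 y hfix,
    m59nz_nu_zero_W A hA M hqM hq2 h4 hp2 y hfix,
    m59dz_delta_zero A hA M hqM hq2 h4 hp2 y hy,
    m59dz_delta_zero_W A hA M hqM hq2 h4 hp2 y hy⟩

end Main

end Fermat.Agent.M59
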